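import Fermat.Agent.CocompactFunctions.Series
import Fermat.Agent.SLnLattice.Cone

/-!
# Forms separate the orbits

For two points in different orbits the series centred at them form, in large suitable weights, a
nearly diagonal two by two matrix of values.
-/

set_option autoImplicit false
set_option linter.unusedSectionVars false
set_option linter.style.haveILetI false

noncomputable section

open Complex Set Filter Topology
open UpperHalfPlane hiding I
open FA.SLnLattice FA.SLnCount FA.CocompactForms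
open scoped MatrixGroups Manifold

namespace FA.CocompactFunctions

variable (Γ : Subgroup SL(2, ℝ)) [DiscreteTopology Γ]

theorem tendsto_val_self (z : ℍ) {e : ℕ} (he : 0 < e)
    (hdvd : 4 * Nat.card (stabAt Γ z.toSL2R⁻¹) ∣ e) :
    Tendsto (fun m => poincareVal Γ z.toSL2R⁻¹ z.toSL2R (e * (m + 3))) atTop
      (𝓝 (Nat.card (stabAt Γ z.toSL2R⁻¹) : ℂ)) := by
  have h := tendsto_poincareVal Γ z.toSL2R⁻¹ z.toSL2R⁻¹⁻¹ he
    fun γ hγ => seed_pow_conj Γ _ hγ hdvd
  rw [ncard_fixing, inv_inv] at h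
  exact h

theorem tendsto_val_other {z w : ℍ} (hzw : ∀ γ ∈ Γ, γ • z ≠ w) {e : ℕ} (he : 0 < e) :
    Tendsto (fun m => poincareVal Γ z.toSL2R⁻¹ w.toSL2R (e * (m + 3))) atTop (𝓝 0) := by
  have hne : ∀ γ : Γ, normSqSL (z.toSL2R⁻¹ * (γ : SL(2, ℝ)) * w.toSL2R) ≠ 2 := fun γ hγ => by
    have h := (normSqSL_eq_two_iff _).1 hγ
    rw [mul_smul, mul_smul, toSL2R_smul_I, inv_smul_eq_iff, toSL2R_smul_I] at h
    exact hzw _ (Γ.inv_mem γ.2) (by rw [← h, inv_smul_smul])
  have h := tendsto_poincareVal Γ z.toSL2R⁻¹ w.toSL2R he fun γ hγ => (hne γ hγ).elim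
  rw [show {γ : Γ | normSqSL (z.toSL2R⁻¹ * (γ : SL(2, ℝ)) * w.toSL2R) = 2} = ∅ from
    eq_empty_of_forall_notMem fun γ hγ => hne γ hγ] at h
  simpa using h

/-- **Forms separate the orbits.** -/
theorem exists_separating {z w : ℍ} (hzw : ∀ γ ∈ Γ, γ • z ≠ w) :
    ∃ k : ℕ, 3 ≤ k ∧ Even k ∧ ∃ f g : ℍ → ℂ, IsForm Γ (k : ℤ) f ∧ IsForm Γ (k : ℤ) g ∧
      f w = 0 ∧ f z ≠ 0 ∧ g z ≠ 0 ∧ g w ≠ 0 := by
  have hwz : ∀ γ ∈ Γ, γ • w ≠ z := fun γ hγ h =>
    hzw _ (Γ.inv_mem hγ) (by rw [← h, inv_smul_smul])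
  set a := z.toSL2R⁻¹
  set b := w.toSL2R⁻¹
  set Nz := Nat.card (stabAt Γ a)
  set Nw := Nat.card (stabAt Γ b)
  have hz0 : 0 < Nz := stabAt_card_pos Γ a
  have hw0 : 0 < Nw := stabAt_card_pos Γ b
  set e := 4 * Nz * Nw with hedef
  have he : 0 < e := Nat.mul_pos (Nat.mul_pos (by norm_num) hz0) hw0
  have hdz : 4 * Nz ∣ e := dvd_mul_right _ _
  have hdw : 4 * Nw ∣ e := Dvd.intro Nz (by rw [hedef]; ring)
  have hzz := tendsto_val_self Γ z he hdz
  have hww := tendsto_val_self Γ w he hdw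
  have hD : Tendsto (fun m => poincareVal Γ a w.toSL2R (e * (m + 3)) *
      poincareVal Γ b z.toSL2R (e * (m + 3)) - poincareVal Γ b w.toSL2R (e * (m + 3)) *
        poincareVal Γ a z.toSL2R (e * (m + 3))) atTop (𝓝 (0 * 0 - (Nw : ℂ) * Nz)) :=
    ((tendsto_val_other Γ hzw he).mul (tendsto_val_other Γ hwz he)).sub (hww.mul hzz)
  have hD0 : (0 : ℂ) * 0 - (Nw : ℂ) * Nz ≠ 0 := by
    simp [Nat.pos_iff_ne_zero.1 hz0, Nat.pos_iff_ne_zero.1 hw0]
  obtain ⟨m, hm1, hm2⟩ := ((hD.eventually_ne hD0).and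
    (hww.eventually_ne (Nat.cast_ne_zero.2 hw0.ne'))).exists
  set k := e * (m + 3)
  have hk : 3 ≤ k := le_trans (Nat.le_add_left 3 m) (Nat.le_mul_of_pos_left _ he)
  have hkev : Even k := ⟨2 * Nz * Nw * (m + 3), by simp only [k, hedef]; ring⟩
  set P : ℍ → ℂ := fun x => poincareAt Γ a k x
  set Q : ℍ → ℂ := fun x => poincareAt Γ b k x
  have hP : P ∈ forms Γ (k : ℤ) := isForm_poincareAt Γ a hk
  have hQ : Q ∈ forms Γ (k : ℤ) := isForm_poincareAt Γ b hk
  set cz : ℂ := (jac z.toSL2R I / 2) ^ k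
  set cw : ℂ := (jac w.toSL2R I / 2) ^ k
  have hcz : cz ≠ 0 := pow_ne_zero _ (div_ne_zero (jac_ne_zero _ (by simp)) two_ne_zero)
  have hcw : cw ≠ 0 := pow_ne_zero _ (div_ne_zero (jac_ne_zero _ (by simp)) two_ne_zero)
  have ev : ∀ (c : SL(2, ℝ)) (x : ℍ),
      poincareAt Γ c k x = (jac x.toSL2R I / 2) ^ k * poincareVal Γ c x.toSL2R k := fun c x => by
    have h := poincareAt_eq Γ c x.toSL2R k
    rwa [toSL2R_smul_I] at h
  set f : ℍ → ℂ := P w • Q - Q w • P with hfdef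
  have hf : f ∈ forms Γ (k : ℤ) :=
    Submodule.sub_mem _ (Submodule.smul_mem _ _ hQ) (Submodule.smul_mem _ _ hP)
  have hfw : f w = 0 := by simp [hfdef, mul_comm]
  have hfz : f z ≠ 0 := by
    have h : f z = cw * cz * (poincareVal Γ a w.toSL2R k * poincareVal Γ b z.toSL2R k -
        poincareVal Γ b w.toSL2R k * poincareVal Γ a z.toSL2R k) := by
      simp only [hfdef, Pi.sub_apply, Pi.smul_apply, smul_eq_mul, P, Q, ev, cz, cw]
      ring
    rw [h]
    exact mul_ne_zero (mul_ne_zero hcw hcz) hm1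
  have hQw : Q w ≠ 0 := by
    show poincareAt Γ b k w ≠ 0
    rw [ev]
    exact mul_ne_zero hcw hm2
  refine ⟨k, hk, hkev, f, if Q z = 0 then Q + f else Q, hf, ?_, hfw, hfz, ?_, ?_⟩
  · split_ifs
    exacts [Submodule.add_mem _ hQ hf, hQ]
  · split_ifs with h0
    · simpa [h0] using hfz
    · exact h0
  · split_ifs with h0
    · simpa [hfw] using hQw
    · exact hQw

/-- There are points in different orbits. -/
theorem exists_distinct_orbits : ∃ z w : ℍ, ∀ γ ∈ Γ, γ • z ≠ w := by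
  haveI : Countable Γ := countable_of_Lindelof_of_discrete
  by_contra! h
  set p : {z : ℂ | 0 < z.im} → Γ := fun x =>
    ⟨_, (h UpperHalfPlane.I ⟨x.1, x.2⟩).choose_spec.1⟩ with hp
  have hinj : Function.Injective p := fun x y hxy => by
    have hx := (h UpperHalfPlane.I ⟨x.1, x.2⟩).choose_spec.2
    have hy := (h UpperHalfPlane.I ⟨y.1, y.2⟩).choose_spec.2
    have e : (h UpperHalfPlane.I ⟨x.1, x.2⟩).choose = (h UpperHalfPlane.I ⟨y.1, y.2⟩).choose :=
      congrArg Subtype.val hxy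
    rw [e, hy] at hx
    exact Subtype.ext (congrArg UpperHalfPlane.coe hx).symm
  have hc : ({z : ℂ | 0 < z.im}).Countable :=
    countable_coe_iff.1 hinj.countable
  have hreal : (univ : Set ℝ).Countable :=
    (hc.preimage (f := fun t : ℝ => (t : ℂ) + I) fun s t hst => by simpa using hst).mono
      fun t _ => by simp
  exact Set.not_countable_univ hreal

end FA.CocompactFunctions

end
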