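import Fermat.Agent.CocompactForms.Bound
import Fermat.Agent.CocompactFunctions.Separate
import Mathlib.Algebra.Polynomial.Basis
import Mathlib.Analysis.Analytic.IsolatedZeros
import Mathlib.Analysis.Complex.Polynomial.Basic
import Mathlib.FieldTheory.IsAlgClosed.Basic
import Mathlib.RingTheory.AlgebraTower
import Mathlib.RingTheory.AlgebraicIndependent.AlgebraicClosure
import Mathlib.RingTheory.AlgebraicIndependent.TranscendenceBasis
import Mathlib.RingTheory.MvPolynomial.Basic

/-!
# The field of automorphic functions of a compact quotient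

Quotients of forms of equal weight form a field.  Clearing denominators in `j ^ p * v i` gives
forms of a weight linear in `p`, so the bound on the dimension of the spaces of forms bounds the
degree of the field over `ℂ(j)`.
-/

set_option autoImplicit false
set_option linter.unusedSectionVars false
set_option linter.style.haveILetI false

noncomputable section

open Complex Set Filter Topology
open UpperHalfPlane hiding I
open IntermediateField (adjoin)
open FA.CocompactForms
open scoped MatrixGroups Manifold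

namespace FA.CocompactFunctions

/-- The algebra of holomorphic functions on the upper half plane. -/
def holAlg : Subalgebra ℂ (ℍ → ℂ) where
  carrier := {f | MDiff f}
  mul_mem' hf hg := UpperHalfPlane.mdifferentiable_iff.2
    ((UpperHalfPlane.mdifferentiable_iff.1 hf).mul (UpperHalfPlane.mdifferentiable_iff.1 hg))
  add_mem' hf hg := UpperHalfPlane.mdifferentiable_iff.2
    ((UpperHalfPlane.mdifferentiable_iff.1 hf).add (UpperHalfPlane.mdifferentiable_iff.1 hg))
  algebraMap_mem' c := UpperHalfPlane.mdifferentiable_iff.2 (differentiableOn_const c)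

instance : NoZeroDivisors holAlg := ⟨fun {f g} hfg => by
  have hU : IsOpen {z : ℂ | 0 < z.im} := isOpen_lt continuous_const Complex.continuous_im
  have han : ∀ u : holAlg, AnalyticOnNhd ℂ ((u : ℍ → ℂ) ∘ ofComplex) {z : ℂ | 0 < z.im} :=
    fun u => (UpperHalfPlane.mdifferentiable_iff.1 u.2).analyticOnNhd hU
  have hzero : ∀ u : holAlg, (∀ z ∈ {z : ℂ | 0 < z.im}, ((u : ℍ → ℂ) ∘ ofComplex) z = 0) →
      u = 0 := fun u hu => Subtype.ext (funext fun z => by
    simpa [ofComplex_apply] using hu z z.im_pos)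
  rcases AnalyticOnNhd.eq_zero_or_eq_zero_of_mul_eq_zero (han f) (han g)
    (fun z _ => congrFun (congrArg Subtype.val hfg) (ofComplex z))
    (convex_halfSpace_im_gt 0).isPreconnected with h | h
  exacts [.inl (hzero f h), .inr (hzero g h)]⟩

instance : IsDomain holAlg := NoZeroDivisors.to_isDomain _

/-- The fraction field of the holomorphic functions. -/
abbrev MeroFrac : Type := FractionRing holAlg

/-- The inclusion of the holomorphic functions. -/
abbrev toFrac : holAlg →ₐ[ℂ] MeroFrac := IsScalarTower.toAlgHom ℂ holAlg MeroFrac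

theorem toFrac_injective : Function.Injective toFrac :=
  IsFractionRing.injective holAlg MeroFrac

theorem toFrac_ne_zero {f : holAlg} (hf : f ≠ 0) : toFrac f ≠ 0 :=
  (map_ne_zero_iff toFrac toFrac_injective).2 hf

theorem isForm_mul {Γ : Subgroup SL(2, ℝ)} {k l : ℤ} {f g : holAlg} (hf : IsForm Γ k f)
    (hg : IsForm Γ l g) : IsForm Γ (k + l) (f * g : holAlg) :=
  ⟨(f * g).2, fun γ hγ z => by
    show f.1 (γ • z) * g.1 (γ • z) = _ * (f.1 z * g.1 z)
    rw [hf.2 γ hγ z, hg.2 γ hγ z, zpow_add₀ (jac_ne_zero γ z.im_ne_zero)]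
    ring⟩

theorem isForm_algebraMap (Γ : Subgroup SL(2, ℝ)) (c : ℂ) :
    IsForm Γ 0 (algebraMap ℂ holAlg c : holAlg) :=
  ⟨(algebraMap ℂ holAlg c).2, fun γ _ z => by simp⟩

theorem isForm_one (Γ : Subgroup SL(2, ℝ)) : IsForm Γ 0 (1 : holAlg) := by
  simpa using isForm_algebraMap Γ 1

theorem isForm_pow {Γ : Subgroup SL(2, ℝ)} {k : ℤ} {f : holAlg} (hf : IsForm Γ k f) (n : ℕ) :
    IsForm Γ ((n : ℤ) * k) (f ^ n : holAlg) := by
  induction n with
  | zero => simpa using isForm_one Γ
  | succ n ih =>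
    rw [pow_succ, show ((n + 1 : ℕ) : ℤ) * k = (n : ℤ) * k + k by push_cast; ring]
    exact isForm_mul ih hf

theorem isForm_prod {Γ : Subgroup SL(2, ℝ)} {ι : Type*} {l : ι → ℤ} {g : ι → holAlg}
    (s : Finset ι) (hg : ∀ i, IsForm Γ (l i) (g i)) :
    IsForm Γ (∑ i ∈ s, l i) (∏ i ∈ s, g i : holAlg) := by
  induction s using Finset.cons_induction with
  | empty => simpa using isForm_one Γ
  | cons i s hi ih =>
    rw [Finset.sum_cons, Finset.prod_cons]
    exact isForm_mul (hg i) ih

/-- A quotient of two forms of the same weight. -/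
def IsQuot (Γ : Subgroup SL(2, ℝ)) (x : MeroFrac) : Prop :=
  ∃ (k : ℤ) (f g : holAlg), IsForm Γ k f ∧ IsForm Γ k g ∧ g ≠ 0 ∧ x = toFrac f / toFrac g

theorem IsQuot.of_form {Γ : Subgroup SL(2, ℝ)} (c : ℂ) : IsQuot Γ (algebraMap ℂ MeroFrac c) :=
  ⟨0, algebraMap ℂ holAlg c, 1, isForm_algebraMap Γ c, isForm_one Γ, one_ne_zero,
    by rw [map_one, div_one, AlgHom.commutes]⟩

/-- **The field of automorphic functions.** -/
def funcField (Γ : Subgroup SL(2, ℝ)) : IntermediateField ℂ MeroFrac where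
  carrier := {x | IsQuot Γ x}
  mul_mem' := by
    rintro _ _ ⟨k, f, g, hf, hg, hg0, rfl⟩ ⟨l, f', g', hf', hg', hg0', rfl⟩
    exact ⟨k + l, f * f', g * g', isForm_mul hf hf', isForm_mul hg hg', mul_ne_zero hg0 hg0',
      by rw [map_mul, map_mul, div_mul_div_comm]⟩
  add_mem' := by
    rintro _ _ ⟨k, f, g, hf, hg, hg0, rfl⟩ ⟨l, f', g', hf', hg', hg0', rfl⟩
    have h : (f * g' + g * f' : holAlg).1 ∈ forms Γ (k + l) :=
      Submodule.add_mem _ (isForm_mul hf hg') (isForm_mul hg hf')
    exact ⟨k + l, f * g' + g * f', g * g', h, isForm_mul hg hg', mul_ne_zero hg0 hg0',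
      by rw [map_add, map_mul, map_mul, map_mul,
        div_add_div _ _ (toFrac_ne_zero hg0) (toFrac_ne_zero hg0')]⟩
  algebraMap_mem' c := IsQuot.of_form c
  inv_mem' := by
    rintro _ ⟨k, f, g, hf, hg, hg0, rfl⟩
    rcases eq_or_ne f 0 with rfl | hf0
    · simpa using IsQuot.of_form (Γ := Γ) (0 : ℂ)
    · exact ⟨k, g, f, hg, hf, hf0, inv_div _ _⟩

theorem mem_funcField {Γ : Subgroup SL(2, ℝ)} {x : MeroFrac} :
    x ∈ funcField Γ ↔ IsQuot Γ x := Iff.rfl

/-- Holomorphic functions without relations: the powers of a transcendental element. -/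
theorem linearIndependent_powers {A : Type*} [CommRing A] [Algebra ℂ A] {x : A}
    (hx : Transcendental ℂ x) (n : ℕ) : LinearIndependent ℂ fun p : Fin n => x ^ (p : ℕ) := by
  have h := ((Polynomial.basisMonomials ℂ).linearIndependent.map' (Polynomial.aeval x).toLinearMap
    (LinearMap.ker_eq_bot.2 (transcendental_iff_injective.1 hx))).comp _
      (Fin.val_injective (n := n))
  simpa [Function.comp_def, Polynomial.aeval_monomial] using h

variable (Γ : Subgroup SL(2, ℝ)) [DiscreteTopology Γ]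

/-- Elements independent over `ℂ(j)` are boundedly many. -/
theorem card_le_of_linearIndependent {C : ℕ}
    (hC : ∀ k : ℤ, FiniteDimensional ℂ (forms Γ k) ∧
      Module.finrank ℂ (forms Γ k) ≤ C * (k.natAbs + 1))
    (j : funcField Γ) (hj : Transcendental ℂ j) {m : ℤ} {a b : holAlg} (ha : IsForm Γ m a)
    (hb : IsForm Γ m b) (hb0 : b ≠ 0) (hjab : (j : MeroFrac) = toFrac a / toFrac b)
    {ι : Type*} [Fintype ι] (v : ι → funcField Γ) (hv : LinearIndependent (adjoin ℂ {j}) v) :
    Fintype.card ι ≤ C * m.natAbs + 1 := by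
  classical
  choose l f g hf hg hg0 hv' using fun i => (mem_funcField.1 (v i).2)
  set L := ∑ i, l i
  set A := C * (L.natAbs + 1)
  set G : ι → holAlg := fun i => f i * ∏ i' ∈ Finset.univ.erase i, g i'
  set q : Fin (A + 1) × ι → holAlg := fun p => a ^ (p.1 : ℕ) * b ^ (A - p.1) * G p.2
  have hq : ∀ p, (q p).1 ∈ forms Γ ((A : ℤ) * m + L) := fun p => by
    have h := isForm_mul (isForm_mul (isForm_pow ha (p.1 : ℕ)) (isForm_pow hb (A - p.1)))
      (isForm_mul (hf p.2) (isForm_prod (Finset.univ.erase p.2) hg))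
    rw [Nat.cast_sub (Nat.le_of_lt_succ p.1.2), ← add_mul, add_sub_cancel,
      Finset.add_sum_erase _ l (Finset.mem_univ p.2)] at h
    exact h
  set D : MeroFrac := toFrac b ^ A * ∏ i, toFrac (g i)
  have hD : D ≠ 0 := mul_ne_zero (pow_ne_zero _ (toFrac_ne_zero hb0))
    (Finset.prod_ne_zero_iff.2 fun i _ => toFrac_ne_zero (hg0 i))
  have hpow : LinearIndependent ℂ fun p : Fin (A + 1) =>
      (⟨j, IntermediateField.mem_adjoin_simple_self ℂ j⟩ : adjoin ℂ {j}) ^ (p : ℕ) := by
    refine linearIndependent_powers (fun halg => hj ?_) _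
    exact halg.algHom (adjoin ℂ {j}).val
  have h1 := linearIndependent_smul hpow hv
  have h2 := h1.map' ((LinearMap.mulLeft ℂ D).comp (funcField Γ).val.toLinearMap)
    (LinearMap.ker_eq_bot.2 fun x y h => Subtype.ext (mul_left_cancel₀ hD h))
  have e : ∀ p : Fin (A + 1) × ι, D * ((j : MeroFrac) ^ (p.1 : ℕ) * (v p.2 : MeroFrac)) =
      toFrac (q p) := fun p => by
    have hb' := toFrac_ne_zero hb0
    have hg' := toFrac_ne_zero (hg0 p.2)
    simp only [D, q, G, map_mul, map_pow, map_prod, hjab, hv' p.2, div_pow]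
    have hsplit : toFrac b ^ A = toFrac b ^ (p.1 : ℕ) * toFrac b ^ (A - p.1) := by
      rw [← pow_add, Nat.add_sub_cancel' (Nat.le_of_lt_succ p.1.2)]
    rw [← Finset.mul_prod_erase _ _ (Finset.mem_univ p.2), hsplit]
    field_simp
  let φ : forms Γ ((A : ℤ) * m + L) →ₗ[ℂ] MeroFrac :=
    { toFun := fun u => toFrac ⟨u.1, u.2.1⟩
      map_add' := fun u u' => map_add toFrac ⟨u.1, u.2.1⟩ ⟨u'.1, u'.2.1⟩
      map_smul' := fun c u => map_smul toFrac c ⟨u.1, u.2.1⟩ }
  have h3 : LinearIndependent ℂ fun p => (⟨_, hq p⟩ : forms Γ ((A : ℤ) * m + L)) := by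
    refine LinearIndependent.of_comp φ ?_
    convert! h2 using 1
    funext p
    exact (e p).symm
  haveI := (hC ((A : ℤ) * m + L)).1
  have h4 := h3.fintype_card_le_finrank.trans (hC _).2
  rw [Fintype.card_prod, Fintype.card_fin] at h4
  have h5 : ((A : ℤ) * m + L).natAbs ≤ A * m.natAbs + L.natAbs := by
    refine (Int.natAbs_add_le _ _).trans (le_of_eq ?_)
    rw [Int.natAbs_mul, Int.natAbs_natCast]
  have h6 : (A + 1) * Fintype.card ι ≤ (A + 1) * (C * m.natAbs + 1) := by
    refine h4.trans ((Nat.mul_le_mul_left C (Nat.add_le_add_right h5 1)).trans ?_)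
    calc C * (A * m.natAbs + L.natAbs + 1) = A * (C * m.natAbs) + C * (L.natAbs + 1) := by ring
      _ = A * (C * m.natAbs) + A := rfl
      _ ≤ A * (C * m.natAbs) + A + (C * m.natAbs + 1) := Nat.le_add_right _ _
      _ = (A + 1) * (C * m.natAbs + 1) := by ring
  exact Nat.le_of_mul_le_mul_left h6 (Nat.succ_pos A)

/-- Quotients of forms taking given values. -/
theorem exists_separating_quot {z w : ℍ} (hzw : ∀ γ ∈ Γ, γ • z ≠ w) :
    ∃ x : funcField Γ, ∃ (k : ℤ) (f g : holAlg), IsForm Γ k f ∧ IsForm Γ k g ∧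
      (x : MeroFrac) = toFrac f / toFrac g ∧ g.1 z ≠ 0 ∧ g.1 w ≠ 0 ∧ f.1 z ≠ 0 ∧ f.1 w = 0 := by
  obtain ⟨k, -, -, f, g, hf, hg, hfw, hfz, hgz, hgw⟩ := exists_separating Γ hzw
  have hg0 : (⟨g, hg.1⟩ : holAlg) ≠ 0 := fun h => hgz (congrFun (congrArg Subtype.val h) z)
  exact ⟨⟨_, ⟨_, ⟨f, hf.1⟩, ⟨g, hg.1⟩, hf, hg, hg0, rfl⟩⟩, _, ⟨f, hf.1⟩, ⟨g, hg.1⟩, hf, hg, rfl,
    hgz, hgw, hfz, hfw⟩

variable [CompactSpace (SL(2, ℝ) ⧸ Γ)]

/-- **The field of automorphic functions is finite over `ℂ(j)`.** -/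
theorem finite_over_adjoin (j : funcField Γ) (hj : Transcendental ℂ j) :
    FiniteDimensional (adjoin ℂ {j}) (funcField Γ) := by
  obtain ⟨C, hC⟩ := exists_finrank_le Γ
  obtain ⟨m, a, b, ha, hb, hb0, hjab⟩ := mem_funcField.1 j.2
  have hr : Module.rank (adjoin ℂ {j}) (funcField Γ) ≤ ((C * m.natAbs + 1 : ℕ) : Cardinal) :=
    rank_le fun s hs => by
      simpa using card_le_of_linearIndependent Γ hC j hj ha hb hb0 hjab _ hs
  haveI : Module.Free (adjoin ℂ {j}) (funcField Γ) := Module.Free.of_divisionRing _ _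
  exact Module.rank_lt_aleph0_iff.1 (hr.trans_lt (Cardinal.natCast_lt_aleph0))

/-- **The transcendence degree is one.** -/
theorem trdeg_funcField {j : funcField Γ} (hj : Transcendental ℂ j) :
    Algebra.trdeg ℂ (funcField Γ) = 1 := by
  haveI := finite_over_adjoin Γ j hj
  have hind : AlgebraicIndependent ℂ ![j] := algebraicIndependent_unique_type_iff.2 hj
  haveI : Algebra.IsAlgebraic (adjoin ℂ {j}) (funcField Γ) := Algebra.IsAlgebraic.of_finite _ _
  have hbasis : IsTranscendenceBasis ℂ ![j] := by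
    refine hind.isTranscendenceBasis_iff_isAlgebraic.2 ?_
    rw [Matrix.range_cons, Matrix.range_empty, Set.union_empty,
      ← IntermediateField.isAlgebraic_adjoin_iff_top]
    infer_instance
  have h := hbasis.lift_cardinalMk_eq_trdeg
  simpa using h.symm

/-- **A transcendental automorphic function exists.** -/
theorem exists_transcendental : ∃ j : funcField Γ, Transcendental ℂ j := by
  obtain ⟨z, w, hzw⟩ := exists_distinct_orbits Γ
  obtain ⟨x, k, f, g, hf, hg, hx, hgz, hgw, hfz, hfw⟩ := exists_separating_quot Γ hzw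
  refine ⟨x, fun halg => hfz ?_⟩
  obtain ⟨c, hc⟩ := minpoly.mem_range_of_degree_eq_one ℂ x
    (IsAlgClosed.degree_eq_one_of_irreducible ℂ (minpoly.irreducible halg.isIntegral))
  have hg0 : g ≠ 0 := fun h => hgz (by rw [h]; rfl)
  have h1 : toFrac (algebraMap ℂ holAlg c * g) = toFrac f := by
    have hx' : toFrac f / toFrac g = algebraMap ℂ MeroFrac c := by
      rw [← hx, ← hc]
      rfl
    rw [map_mul, AlgHom.commutes, ← hx', div_mul_cancel₀ _ (toFrac_ne_zero hg0)]
  have h2 : ∀ y, c * g.1 y = f.1 y := fun y =>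
    congrFun (congrArg Subtype.val (toFrac_injective h1)) y
  have hc0 : c = 0 := by simpa [hfw, hgw] using h2 w
  rw [← h2 z, hc0, zero_mul]

/-- **Three forms of positive weights are algebraically dependent.** -/
theorem not_algebraicIndependent_three {k : Fin 3 → ℕ} (hk : ∀ i, 0 < k i) {f : Fin 3 → holAlg}
    (hf : ∀ i, IsForm Γ (k i : ℤ) (f i)) : ¬ AlgebraicIndependent ℂ f := by
  intro hind
  obtain ⟨C, hC⟩ := exists_finrank_le Γ
  set K := k 0 * k 1 * k 2
  set A := 2 * C * K + C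
  set s : Fin (A + 1) × Fin (A + 1) → (Fin 3 →₀ ℕ) := fun p => Finsupp.equivFunOnFinite.symm
    ![(p.1 : ℕ) * (k 1 * k 2), (p.2 : ℕ) * (k 0 * k 2), (2 * A - p.1 - p.2) * (k 0 * k 1)]
  have hs : Function.Injective s := fun p q h => by
    have h0 := congrArg (fun d : Fin 3 →₀ ℕ => d 0) h
    have h1 := congrArg (fun d : Fin 3 →₀ ℕ => d 1) h
    simp [s, (hk _).ne'] at h0 h1
    exact Prod.ext (Fin.ext h0) (Fin.ext h1)
  have h1 := ((MvPolynomial.basisMonomials (Fin 3) ℂ).linearIndependent.map'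
    (MvPolynomial.aeval f).toLinearMap
    (LinearMap.ker_eq_bot.2 (algebraicIndependent_iff_injective_aeval.1 hind))).comp s hs
  have hmem : ∀ p, (MvPolynomial.aeval f (MvPolynomial.monomial (s p) (1 : ℂ))).1 ∈
      forms Γ ((2 * A * K : ℕ) : ℤ) := fun p => by
    rw [MvPolynomial.aeval_monomial, map_one, one_mul,
      Finsupp.prod_fintype _ _ (fun i => pow_zero _), Fin.prod_univ_three]
    have h := isForm_mul (isForm_mul (isForm_pow (hf 0) (s p 0)) (isForm_pow (hf 1) (s p 1)))
      (isForm_pow (hf 2) (s p 2))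
    rw [← Nat.cast_mul, ← Nat.cast_mul, ← Nat.cast_mul, ← Nat.cast_add, ← Nat.cast_add] at h
    have hweight : s p 0 * k 0 + s p 1 * k 1 + s p 2 * k 2 = 2 * A * K := by
      have hle : (p.1 : ℕ) + p.2 ≤ 2 * A := by omega
      obtain ⟨r, hr⟩ := Nat.exists_eq_add_of_le hle
      simp [s, K]
      rw [Nat.sub_sub, hr, Nat.add_sub_cancel_left]
      ring
    rw [hweight] at h
    exact h
  have h2 : LinearIndependent ℂ fun p => (⟨_, hmem p⟩ : forms Γ ((2 * A * K : ℕ) : ℤ)) := by
    refine LinearIndependent.of_comp (forms Γ _).subtype ?_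
    convert! h1.map' (holAlg.val.toLinearMap) (LinearMap.ker_eq_bot.2 Subtype.val_injective) using 1
  haveI := (hC ((2 * A * K : ℕ) : ℤ)).1
  have h3 := h2.fintype_card_le_finrank.trans (hC _).2
  simp only [Fintype.card_prod, Fintype.card_fin, Int.natAbs_natCast] at h3
  have : A = 2 * C * K + C := rfl
  nlinarith

end FA.CocompactFunctions

end
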