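import Fermat.Agent.CocompactForms.Poincare

/-!
# Poincaré series centred at a point

The series `∑ seed (h γ) z ^ (-k)` is a form of weight `k`.  Evaluated at `g • i` and normalised
it becomes `∑ (2 / seed (h γ g) i) ^ k`, which tends along multiples of a period of the stabiliser
to the number of `γ` for which `h γ g` fixes `i`.
-/

set_option autoImplicit false
set_option linter.unusedSectionVars false
set_option linter.style.haveILetI false

noncomputable section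

open Complex Set Filter Topology
open UpperHalfPlane hiding I
open FA.SLnLattice FA.SLnCount FA.CocompactForms
open scoped MatrixGroups Manifold

namespace FA.CocompactFunctions

theorem normSqSL_mul_le (u v : SL(2, ℝ)) : normSqSL (u * v) ≤ normSqSL u * normSqSL v := by
  rw [normSqSL_eq, normSqSL_eq, normSqSL_eq, Matrix.SpecialLinearGroup.coe_mul]
  exact matSq_mul _ _

theorem normSqSL_eq_two_iff (u : SL(2, ℝ)) :
    normSqSL u = 2 ↔ u • UpperHalfPlane.I = UpperHalfPlane.I := by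
  have hdet := u.prop
  rw [Matrix.det_fin_two] at hdet
  have hne := jac_ne_zero u (z := I) (by simp)
  rw [UpperHalfPlane.ext_iff, coe_smul_eq_mob, mob, UpperHalfPlane.coe_I, div_eq_iff hne,
    normSqSL_eq]
  simp [jac, matSq, Fin.sum_univ_two, Complex.ext_iff]
  constructor
  · intro h
    have h1 : (u 0 0 - u 1 1) ^ 2 + (u 0 1 + u 1 0) ^ 2 = 0 := by linarith
    constructor <;> nlinarith [sq_nonneg (u 0 0 - u 1 1), sq_nonneg (u 0 1 + u 1 0)]
  · rintro ⟨h1, h2⟩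
    nlinarith

/-- The Poincaré series centred at `h⁻¹ • i`. -/
def poincareAt (Γ : Subgroup SL(2, ℝ)) (h : SL(2, ℝ)) (k : ℕ) (z : ℂ) : ℂ :=
  ∑' γ : Γ, (seed (h * (γ : SL(2, ℝ))) z ^ k)⁻¹

/-- The normalised values at `g • i`. -/
def poincareVal (Γ : Subgroup SL(2, ℝ)) (h g : SL(2, ℝ)) (k : ℕ) : ℂ :=
  ∑' γ : Γ, (2 / seed (h * (γ : SL(2, ℝ)) * g) I) ^ k

variable (Γ : Subgroup SL(2, ℝ)) [DiscreteTopology Γ] (h g : SL(2, ℝ))

theorem summable_translate :
    Summable fun γ : Γ => (Real.sqrt (normSqSL (h * (γ : SL(2, ℝ)) * g)))⁻¹ ^ 3 := by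
  set c := normSqSL h⁻¹ * normSqSL g⁻¹
  have hc : 0 < c :=
    mul_pos (by linarith [two_le_normSqSL h⁻¹]) (by linarith [two_le_normSqSL g⁻¹])
  refine ((summable_normSqSL Γ).mul_left (Real.sqrt c ^ 3)).of_nonneg_of_le
    (fun γ => by positivity) fun γ => ?_
  have hle : normSqSL (γ : SL(2, ℝ)) ≤ c * normSqSL (h * (γ : SL(2, ℝ)) * g) := by
    have h1 := normSqSL_mul_le h⁻¹ (h * (γ : SL(2, ℝ)) * g)
    have h2 := normSqSL_mul_le (h⁻¹ * (h * (γ : SL(2, ℝ)) * g)) g⁻¹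
    rw [show h⁻¹ * (h * (γ : SL(2, ℝ)) * g) * g⁻¹ = γ by group] at h2
    refine h2.trans ((mul_le_mul_of_nonneg_right h1 ?_).trans_eq (by ring))
    linarith [two_le_normSqSL g⁻¹]
  have hn := two_le_normSqSL (γ : SL(2, ℝ))
  rw [← mul_pow]
  refine pow_le_pow_left₀ (by positivity) ?_ 3
  rw [← div_eq_mul_inv, le_div_iff₀ (Real.sqrt_pos.2 (by linarith)),
    inv_mul_le_iff₀ (Real.sqrt_pos.2 (by linarith [two_le_normSqSL (h * (γ : SL(2, ℝ)) * g)]))]
  refine (Real.sqrt_le_sqrt hle).trans_eq ?_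
  rw [Real.sqrt_mul hc.le, mul_comm]

theorem exists_majorant_at {k : ℕ} (hk : 3 ≤ k) {B : ℝ} (hB : 1 ≤ B) :
    ∃ u : Γ → ℝ, Summable u ∧ ∀ (γ : Γ) (z : ℂ), |z.re| ≤ B → 1 / B ≤ z.im →
      ‖(seed (h * (γ : SL(2, ℝ))) z ^ k)⁻¹‖ ≤ u γ := by
  have hsum : Summable fun γ : Γ => (Real.sqrt (normSqSL (h * (γ : SL(2, ℝ)))))⁻¹ ^ 3 := by
    simpa using summable_translate Γ h 1
  refine ⟨fun γ => Real.sqrt (8 * B ^ 4) ^ k * (Real.sqrt (normSqSL (h * (γ : SL(2, ℝ)))))⁻¹ ^ 3,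
    hsum.mul_left _, fun γ z hx hy => ?_⟩
  set w := h * (γ : SL(2, ℝ))
  have hn := two_le_normSqSL w
  have hne : (1 : ℝ) ≤ Real.sqrt (normSqSL w) := Real.one_le_sqrt.2 (by linarith)
  have hs0 : 0 < ‖seed w z‖ := norm_pos_iff.2
    (seed_ne_zero _ (lt_of_lt_of_le (by positivity) hy))
  have h1 : ‖seed w z‖⁻¹ ≤ Real.sqrt (8 * B ^ 4) * (Real.sqrt (normSqSL w))⁻¹ := by
    rw [← div_eq_mul_inv, le_div_iff₀ (by linarith), inv_mul_le_iff₀ hs0]
    calc Real.sqrt (normSqSL w) ≤ Real.sqrt (8 * B ^ 4 * ‖seed w z‖ ^ 2) :=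
          Real.sqrt_le_sqrt (seed_lower_bound hB hx hy _)
      _ = ‖seed w z‖ * Real.sqrt (8 * B ^ 4) := by
          rw [Real.sqrt_mul (by positivity), Real.sqrt_sq (norm_nonneg _), mul_comm]
  rw [norm_inv, norm_pow, ← inv_pow]
  refine (pow_le_pow_left₀ (by positivity) h1 k).trans ?_
  rw [mul_pow]
  exact mul_le_mul_of_nonneg_left
    (pow_le_pow_of_le_one (by positivity) (inv_le_one_of_one_le₀ hne) hk) (by positivity)

theorem differentiableOn_poincareAt {k : ℕ} (hk : 3 ≤ k) :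
    DifferentiableOn ℂ (poincareAt Γ h k) {z : ℂ | 0 < z.im} := by
  intro z hz
  set B := max (max 1 (|z.re| + 1)) (2 / z.im) with hBdef
  have hB : 1 ≤ B := (le_max_left _ _).trans (le_max_left _ _)
  set O : Set ℂ := {w | |w.re| < B} ∩ {w | 1 / B < w.im}
  have hO : IsOpen O := (isOpen_lt Complex.continuous_re.abs continuous_const).inter
    (isOpen_lt continuous_const Complex.continuous_im)
  have hzO : z ∈ O := by
    refine ⟨show |z.re| < B from
      lt_of_lt_of_le (lt_add_one _) ((le_max_right _ _).trans (le_max_left _ _)), ?_⟩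
    have h2 : 2 / z.im ≤ B := le_max_right _ _
    show 1 / B < z.im
    rw [div_le_iff₀ hz] at h2
    rw [div_lt_iff₀ (by linarith)]
    linarith
  obtain ⟨u, hu, hle⟩ := exists_majorant_at Γ h hk hB
  have hd := Complex.differentiableOn_tsum_of_summable_norm (U := O) hu
    (F := fun (γ : Γ) w => (seed (h * (γ : SL(2, ℝ))) w ^ k)⁻¹) (fun γ w hw => by
      have hw0 : 0 < w.im := lt_trans (by positivity) hw.2
      have hs : DifferentiableAt ℂ (fun w => seed (h * (γ : SL(2, ℝ))) w ^ k) w := by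
        simp only [seed, jac]
        fun_prop
      exact (hs.inv (pow_ne_zero k (seed_ne_zero _ hw0))).differentiableWithinAt)
      hO (fun γ w hw => hle γ w hw.1.le hw.2.le)
  exact (hd.differentiableAt (hO.mem_nhds hzO)).differentiableWithinAt

/-- **The centred series is a form.** -/
theorem isForm_poincareAt {k : ℕ} (hk : 3 ≤ k) :
    IsForm Γ (k : ℤ) fun z : ℍ => poincareAt Γ h k z := by
  refine ⟨UpperHalfPlane.mdifferentiable_iff.2 ((differentiableOn_poincareAt Γ h hk).congr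
    fun z hz => ?_), fun δ hδ z => ?_⟩
  · rw [Function.comp_apply, ofComplex_apply_of_im_pos hz]
  · have e : ∀ γ : Γ, (seed (h * (γ : SL(2, ℝ))) (δ • z : ℍ) ^ k)⁻¹ =
        jac δ z ^ k * (seed (h * ((γ * ⟨δ, hδ⟩ : Γ) : SL(2, ℝ))) z ^ k)⁻¹ := fun γ => by
      rw [Subgroup.coe_mul, ← mul_assoc, ← seed_smul (h * (γ : SL(2, ℝ))) δ z, mul_pow, mul_inv,
        mul_left_comm,
        mul_inv_cancel₀ (pow_ne_zero _ (jac_ne_zero δ z.im_ne_zero)), mul_one]
    rw [zpow_natCast]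
    simp only [poincareAt]
    rw [tsum_congr e, tsum_mul_left]
    congr 1
    exact (Equiv.mulRight (⟨δ, hδ⟩ : Γ)).tsum_eq fun γ : Γ => (seed (h * (γ : SL(2, ℝ))) z ^ k)⁻¹

theorem poincareAt_eq (k : ℕ) :
    poincareAt Γ h k (g • UpperHalfPlane.I : ℍ) =
      (jac g I / 2) ^ k * poincareVal Γ h g k := by
  rw [poincareAt, poincareVal, ← tsum_mul_left]
  refine tsum_congr fun γ => ?_
  have e := seed_smul (h * (γ : SL(2, ℝ))) g UpperHalfPlane.I
  rw [UpperHalfPlane.coe_I] at e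
  rw [← e, ← mul_pow, ← inv_pow]
  congr 1
  field_simp [jac_ne_zero g (z := I) (by simp)]

theorem finite_normSqSL_le (R : ℝ) : {γ : Γ | normSqSL (γ : SL(2, ℝ)) ≤ R}.Finite := by
  obtain ⟨C, hC0, hC⟩ := exists_count_le Γ
  by_contra hinf
  obtain ⟨n, hn⟩ := exists_nat_gt (C * max R 1)
  obtain ⟨s, hs, hcard⟩ := Set.Infinite.exists_subset_card_eq hinf n
  have := hC (max R 1) (le_max_right _ _) s fun γ hγ =>
    (show normSqSL (γ : SL(2, ℝ)) ≤ R from hs hγ).trans (le_max_left _ _)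
  rw [hcard] at this
  linarith

theorem finite_fixing : {γ : Γ | normSqSL (h * (γ : SL(2, ℝ)) * g) = 2}.Finite :=
  (finite_normSqSL_le Γ (normSqSL h⁻¹ * 2 * normSqSL g⁻¹)).subset fun γ hγ => by
    have h1 := normSqSL_mul_le h⁻¹ (h * (γ : SL(2, ℝ)) * g)
    have h2 := normSqSL_mul_le (h⁻¹ * (h * (γ : SL(2, ℝ)) * g)) g⁻¹
    rw [show h⁻¹ * (h * (γ : SL(2, ℝ)) * g) * g⁻¹ = γ by group] at h2
    rw [show normSqSL (h * (γ : SL(2, ℝ)) * g) = 2 from hγ] at h1
    exact h2.trans (mul_le_mul_of_nonneg_right h1 (by linarith [two_le_normSqSL g⁻¹]))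

/-- **The limit of the normalised values.** -/
theorem tendsto_poincareVal {e : ℕ} (he : 0 < e)
    (hper : ∀ γ : Γ, normSqSL (h * (γ : SL(2, ℝ)) * g) = 2 →
      seed (h * (γ : SL(2, ℝ)) * g) I ^ e = 2 ^ e) :
    Tendsto (fun m => poincareVal Γ h g (e * (m + 3))) atTop
      (𝓝 ({γ : Γ | normSqSL (h * (γ : SL(2, ℝ)) * g) = 2}.ncard : ℂ)) := by
  classical
  set S := {γ : Γ | normSqSL (h * (γ : SL(2, ℝ)) * g) = 2} with hS
  set w : Γ → SL(2, ℝ) := fun γ => h * (γ : SL(2, ℝ)) * g with hw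
  have hnorm : ∀ γ, ‖seed (w γ) I‖ = Real.sqrt (normSqSL (w γ) + 2) :=
    fun γ => by rw [← normSq_seed_I, Real.sqrt_sq (norm_nonneg _)]
  have h2le : ∀ γ, (2 : ℝ) ≤ ‖seed (w γ) I‖ := fun γ => by
    rw [hnorm]
    exact Real.le_sqrt_of_sq_le (by linarith [two_le_normSqSL (w γ)])
  have hlim : ∀ γ : Γ, Tendsto (fun m => (2 / seed (w γ) I) ^ (e * (m + 3))) atTop
      (𝓝 (if γ ∈ S then 1 else 0)) := fun γ => by
    by_cases hγ : γ ∈ S
    · rw [if_pos hγ]
      refine tendsto_const_nhds.congr fun m => ?_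
      rw [pow_mul, div_pow, hper γ hγ, div_self (pow_ne_zero _ two_ne_zero), one_pow]
    · rw [if_neg hγ]
      have hlt : (2 : ℝ) < ‖seed (w γ) I‖ := lt_of_le_of_ne (h2le γ) fun heq => hγ (by
        have := normSq_seed_I (w γ)
        rw [← heq] at this
        show normSqSL (w γ) = 2
        linarith)
      refine (tendsto_pow_atTop_nhds_zero_of_norm_lt_one (x := 2 / seed (w γ) I) ?_).comp
        (tendsto_atTop_mono (fun m => (by simp only [id]; nlinarith : id m ≤ _)) tendsto_id)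
      rw [norm_div, Complex.norm_ofNat, div_lt_one (by linarith)]
      exact hlt
  have hbd : ∀ᶠ m in atTop, ∀ γ : Γ, ‖(2 / seed (w γ) I) ^ (e * (m + 3))‖ ≤
      2 ^ 3 * (Real.sqrt (normSqSL (w γ)))⁻¹ ^ 3 := Eventually.of_forall fun m γ => by
    have hpos : 0 < Real.sqrt (normSqSL (w γ)) :=
      Real.sqrt_pos.2 (by linarith [two_le_normSqSL (w γ)])
    rw [norm_pow, norm_div, Complex.norm_ofNat, ← mul_pow]
    refine (pow_le_pow_of_le_one (by positivity) ((div_le_one (by linarith [h2le γ])).2 (h2le γ))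
      (show 3 ≤ e * (m + 3) by nlinarith)).trans (pow_le_pow_left₀ (by positivity) ?_ 3)
    rw [← div_eq_mul_inv, hnorm]
    exact div_le_div_of_nonneg_left zero_le_two hpos (Real.sqrt_le_sqrt (by linarith))
  have hT := tendsto_tsum_of_dominated_convergence
    ((summable_translate Γ h g).mul_left (2 ^ 3)) hlim hbd
  have hfin : S.Finite := finite_fixing Γ h g
  have hval : (∑' γ : Γ, if γ ∈ S then (1 : ℂ) else 0) = (S.ncard : ℂ) := by
    rw [tsum_eq_sum (s := hfin.toFinset) fun γ hγ => if_neg fun hS' => hγ (hfin.mem_toFinset.2 hS'),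
      Set.ncard_eq_toFinset_card S hfin,
      Finset.sum_congr rfl fun γ hγ => if_pos (hfin.mem_toFinset.1 hγ)]
    simp
  rw [hval] at hT
  exact hT

/-- The stabiliser of `h⁻¹ • i`. -/
def stabAt : Subgroup Γ := MulAction.stabilizer Γ (h⁻¹ • UpperHalfPlane.I)

theorem mem_stabAt_iff (γ : Γ) : γ ∈ stabAt Γ h ↔ normSqSL (h * (γ : SL(2, ℝ)) * h⁻¹) = 2 := by
  rw [normSqSL_eq_two_iff, stabAt, MulAction.mem_stabilizer_iff, Subgroup.smul_def, mul_smul,
    mul_smul, smul_eq_iff_eq_inv_smul h]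

theorem finite_stabAt : Finite (stabAt Γ h) :=
  Set.Finite.to_subtype ((finite_fixing Γ h h⁻¹).subset fun γ hγ => (mem_stabAt_iff Γ h γ).1 hγ)

theorem stabAt_card_pos : 0 < Nat.card (stabAt Γ h) := by
  haveI := finite_stabAt Γ h
  exact Nat.card_pos

theorem ncard_fixing :
    {γ : Γ | normSqSL (h * (γ : SL(2, ℝ)) * h⁻¹) = 2}.ncard = Nat.card (stabAt Γ h) := by
  rw [← Nat.card_coe_set_eq]
  exact Nat.card_congr (Equiv.subtypeEquivRight fun γ => (mem_stabAt_iff Γ h γ).symm)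

/-- The stabiliser has period four times its order. -/
theorem seed_pow_conj {γ : Γ} (hγ : normSqSL (h * (γ : SL(2, ℝ)) * h⁻¹) = 2) {e : ℕ}
    (he : 4 * Nat.card (stabAt Γ h) ∣ e) : seed (h * (γ : SL(2, ℝ)) * h⁻¹) I ^ e = 2 ^ e := by
  set N := Nat.card (stabAt Γ h) with hN
  set u := h * (γ : SL(2, ℝ)) * h⁻¹ with hu
  have hfix : u • UpperHalfPlane.I = UpperHalfPlane.I := (normSqSL_eq_two_iff u).1 hγ
  have hseed : seed u I = 2 * I * jac u I := by
    have h' := seed_eq u UpperHalfPlane.I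
    rw [hfix, UpperHalfPlane.coe_I] at h'
    rw [h']
    ring
  have hj : ∀ m : ℕ, jac (u ^ m) I = jac u I ^ m := fun m => by
    induction m with
    | zero => simp [jac]
    | succ m ih =>
      have h' := jac_mul (u ^ m) u UpperHalfPlane.I
      rw [hfix, UpperHalfPlane.coe_I, ih] at h'
      rw [pow_succ, h', pow_succ]
  haveI := finite_stabAt Γ h
  have hone : γ ^ N = 1 := congrArg Subtype.val
    (pow_card_eq_one' (x := (⟨γ, (mem_stabAt_iff Γ h γ).2 hγ⟩ : stabAt Γ h)))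
  have h1 : jac u I ^ N = 1 := by
    rw [← hj, hu, conj_pow, ← Subgroup.coe_pow, hone]
    simp [jac]
  obtain ⟨c, rfl⟩ := he
  rw [hseed, mul_pow, mul_pow, mul_assoc 4 N c, pow_mul I, Complex.I_pow_four, one_pow,
    mul_comm 4 (N * c), mul_assoc N c, pow_mul (jac u I) N, h1, one_pow, mul_one, mul_one]

end FA.CocompactFunctions

end
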